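/-
S16 / WP L-an (helper488): analytic side of the theta series of a positive definite quadratic form.
Part 1: summability of `x ↦ exp (-t * Q (x + h))` over `ι → ℤ`.  Mathlib only.
-/
import Mathlib

set_option autoImplicit false

namespace Fermat.Agent.S16.H488

open Real Complex
open scoped Manifold

noncomputable section

variable {ι : Type*} [Fintype ι]

/-- A family of products of nonnegative summable functions is summable over the pi type. -/
theorem summable_pi_prod {α : Type*} (g : ι → α → ℝ) (hg0 : ∀ i a, 0 ≤ g i a)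
    (hg : ∀ i, Summable (g i)) : Summable fun x : ι → α => ∏ i, g i (x i) := by
  classical
  refine summable_of_sum_le (c := ∏ i, ∑' a, g i a)
    (fun x => Finset.prod_nonneg fun i _ => hg0 i (x i)) fun u => ?_
  -- enclose `u` in a box
  set t : ι → Finset α := fun i => u.image fun x => x i with ht
  have hsub : u ⊆ Fintype.piFinset t := by
    intro x hx
    rw [Fintype.mem_piFinset]
    intro i
    exact Finset.mem_image_of_mem (fun x : ι → α => x i) hx
  calc ∑ x ∈ u, ∏ i, g i (x i)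
      ≤ ∑ x ∈ Fintype.piFinset t, ∏ i, g i (x i) :=
        Finset.sum_le_sum_of_subset_of_nonneg hsub
          fun x _ _ => Finset.prod_nonneg fun i _ => hg0 i (x i)
    _ = ∏ i, ∑ a ∈ t i, g i a := (Finset.prod_univ_sum t fun i a => g i a).symm
    _ ≤ ∏ i, ∑' a, g i a := by
        refine Finset.prod_le_prod (fun i _ => Finset.sum_nonneg fun a _ => hg0 i a) fun i _ => ?_
        exact (hg i).sum_le_tsum _ fun a _ => hg0 i a

/-- The quadratic form `vᵀ A v` of a real matrix. -/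
def quadR (A : Matrix ι ι ℝ) (v : ι → ℝ) : ℝ := v ⬝ᵥ (A.mulVec v)

/-- Coercivity: `c ∑ vᵢ² ≤ vᵀ A v` with `c > 0`. -/
def Coercive (A : Matrix ι ι ℝ) : Prop :=
  ∃ c : ℝ, 0 < c ∧ ∀ v : ι → ℝ, c * ∑ i, v i ^ 2 ≤ quadR A v

theorem quadR_smul (A : Matrix ι ι ℝ) (r : ℝ) (v : ι → ℝ) :
    quadR A (r • v) = r ^ 2 * quadR A v := by
  unfold quadR
  rw [Matrix.mulVec_smul, dotProduct_smul, smul_dotProduct]
  simp only [smul_eq_mul]
  ring

theorem continuous_quadR (A : Matrix ι ι ℝ) : Continuous (quadR A) := by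
  unfold quadR
  simp only [dotProduct, Matrix.mulVec]
  fun_prop


theorem quadR_pos_of_posDef {A : Matrix ι ι ℝ} (hA : A.PosDef) {v : ι → ℝ} (hv : v ≠ 0) :
    0 < quadR A v := by
  have := hA.dotProduct_mulVec_pos hv
  simpa [quadR] using this

theorem sum_sq_le_card_mul_norm_sq (v : ι → ℝ) :
    ∑ i, v i ^ 2 ≤ (Fintype.card ι : ℝ) * ‖v‖ ^ 2 := by
  calc ∑ i, v i ^ 2 ≤ ∑ _i : ι, ‖v‖ ^ 2 := by
        refine Finset.sum_le_sum fun i _ => ?_
        have h1 : |v i| ≤ ‖v‖ := by
          simpa [Real.norm_eq_abs] using norm_le_pi_norm v i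
        calc v i ^ 2 = |v i| ^ 2 := (sq_abs _).symm
          _ ≤ ‖v‖ ^ 2 := by gcongr
    _ = (Fintype.card ι : ℝ) * ‖v‖ ^ 2 := by
        simp [Finset.sum_const, Finset.card_univ]

theorem coercive_of_posDef {A : Matrix ι ι ℝ} (hA : A.PosDef) : Coercive A := by
  classical
  rcases isEmpty_or_nonempty ι with hι | hι
  · refine ⟨1, one_pos, fun v => ?_⟩
    simp [quadR, dotProduct]
  · have hcard : (0 : ℝ) < Fintype.card ι := by exact_mod_cast Fintype.card_pos
    have hS : IsCompact (Metric.sphere (0 : ι → ℝ) 1) := isCompact_sphere 0 1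
    have hne : (Metric.sphere (0 : ι → ℝ) 1).Nonempty :=
      (NormedSpace.sphere_nonempty (E := ι → ℝ)).mpr zero_le_one
    obtain ⟨u, hu, hmin⟩ := hS.exists_isMinOn hne (continuous_quadR A).continuousOn
    have hu0 : u ≠ 0 := by
      rintro rfl
      simp at hu
    have hm : 0 < quadR A u := quadR_pos_of_posDef hA hu0
    refine ⟨quadR A u / Fintype.card ι, div_pos hm hcard, fun v => ?_⟩
    rcases eq_or_ne v 0 with rfl | hv
    · simp [quadR]
    · have hvn : 0 < ‖v‖ := norm_pos_iff.mpr hv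
      have hw : ‖v‖⁻¹ • v ∈ Metric.sphere (0 : ι → ℝ) 1 := by
        rw [mem_sphere_zero_iff_norm, norm_smul, norm_inv, norm_norm, inv_mul_cancel₀ hvn.ne']
      have h1 : quadR A u ≤ quadR A (‖v‖⁻¹ • v) := hmin hw
      rw [quadR_smul] at h1
      have h2 : quadR A u * ‖v‖ ^ 2 ≤ quadR A v := by
        have := mul_le_mul_of_nonneg_right h1 (sq_nonneg ‖v‖)
        rwa [mul_comm (‖v‖⁻¹ ^ 2), mul_assoc, inv_pow, inv_mul_cancel₀ (pow_ne_zero 2 hvn.ne'),
          mul_one] at this
      calc quadR A u / Fintype.card ι * ∑ i, v i ^ 2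
          ≤ quadR A u / Fintype.card ι * ((Fintype.card ι : ℝ) * ‖v‖ ^ 2) :=
            mul_le_mul_of_nonneg_left (sum_sq_le_card_mul_norm_sq v) (div_pos hm hcard).le
        _ = quadR A u * ‖v‖ ^ 2 := by field_simp
        _ ≤ quadR A v := h2


theorem summable_exp_neg_mul_shift_sq {t : ℝ} (ht : 0 < t) (a : ℝ) :
    Summable fun n : ℤ => rexp (-t * ((n : ℝ) + a) ^ 2) := by
  have hτ : 0 < ((t / π : ℝ) * I : ℂ).im := by
    simp only [mul_im, ofReal_re, I_im, mul_one, ofReal_im, I_re, mul_zero, add_zero]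
    positivity
  have h := ((summable_jacobiTheta₂_term_iff ((t * a / π : ℝ) * I) ((t / π : ℝ) * I)).mpr hτ).norm
  have h2 := h.mul_left (rexp (-t * a ^ 2))
  refine h2.congr fun n => ?_
  rw [norm_jacobiTheta₂_term, ← Real.exp_add]
  congr 1
  simp only [mul_im, ofReal_re, I_im, mul_one, ofReal_im, I_re, mul_zero, add_zero]
  field_simp
  ring

/-- The vector `x + h` as a real vector. -/
def shiftVec (h : ι → ℝ) (x : ι → ℤ) : ι → ℝ := fun i => (x i : ℝ) + h i

theorem summable_exp_neg_quadR {A : Matrix ι ι ℝ} (hA : Coercive A) {t : ℝ} (ht : 0 < t)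
    (h : ι → ℝ) : Summable fun x : ι → ℤ => rexp (-t * quadR A (shiftVec h x)) := by
  obtain ⟨c, hc, hAc⟩ := hA
  have hs : Summable fun x : ι → ℤ => ∏ i, rexp (-(t * c) * ((x i : ℝ) + h i) ^ 2) :=
    summable_pi_prod (fun i (n : ℤ) => rexp (-(t * c) * ((n : ℝ) + h i) ^ 2))
      (fun _ _ => (Real.exp_pos _).le)
      (fun i => summable_exp_neg_mul_shift_sq (mul_pos ht hc) (h i))
  refine Summable.of_nonneg_of_le (fun _ => (Real.exp_pos _).le) (fun x => ?_) hs
  rw [← Real.exp_sum]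
  apply Real.exp_le_exp.mpr
  rw [← Finset.mul_sum]
  have := hAc (shiftVec h x)
  simp only [shiftVec] at this ⊢
  nlinarith [mul_le_mul_of_nonneg_left this ht.le]


theorem quadR_nonneg {A : Matrix ι ι ℝ} (hA : Coercive A) (v : ι → ℝ) : 0 ≤ quadR A v := by
  obtain ⟨c, hc, hAc⟩ := hA
  exact le_trans (mul_nonneg hc.le (Finset.sum_nonneg fun i _ => sq_nonneg _)) (hAc v)

/-- Term of the theta series with (real) characteristic `h`:
`exp (π i τ (x+h)ᵀ A (x+h))`. -/
def thetaTerm (A : Matrix ι ι ℝ) (h : ι → ℝ) (τ : ℂ) (x : ι → ℤ) : ℂ :=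
  cexp (π * I * τ * (quadR A (shiftVec h x) : ℝ))

/-- Theta series with characteristic `h` as a function on `ℂ` (junk outside the upper half
plane). -/
def thetaChar (A : Matrix ι ι ℝ) (h : ι → ℝ) (τ : ℂ) : ℂ := ∑' x : ι → ℤ, thetaTerm A h τ x

theorem norm_thetaTerm (A : Matrix ι ι ℝ) (h : ι → ℝ) (τ : ℂ) (x : ι → ℤ) :
    ‖thetaTerm A h τ x‖ = rexp (-(π * τ.im) * quadR A (shiftVec h x)) := by
  rw [thetaTerm, Complex.norm_exp]
  congr 1
  simp only [mul_re, mul_im, ofReal_re, ofReal_im, I_re, I_im]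
  ring

theorem norm_thetaTerm_le {A : Matrix ι ι ℝ} (hA : Coercive A) (h : ι → ℝ) {τ : ℂ} {ε : ℝ}
    (hε : ε ≤ τ.im) (x : ι → ℤ) :
    ‖thetaTerm A h τ x‖ ≤ rexp (-(π * ε) * quadR A (shiftVec h x)) := by
  rw [norm_thetaTerm]
  apply Real.exp_le_exp.mpr
  have hq := quadR_nonneg hA (shiftVec h x)
  have : π * ε ≤ π * τ.im := mul_le_mul_of_nonneg_left hε Real.pi_pos.le
  nlinarith [mul_le_mul_of_nonneg_right this hq]

theorem summable_thetaTerm {A : Matrix ι ι ℝ} (hA : Coercive A) (h : ι → ℝ) {τ : ℂ}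
    (hτ : 0 < τ.im) : Summable (thetaTerm A h τ) := by
  refine Summable.of_norm ?_
  refine (summable_exp_neg_quadR hA (mul_pos Real.pi_pos hτ) h).congr fun x => ?_
  rw [norm_thetaTerm]

theorem differentiable_thetaTerm (A : Matrix ι ι ℝ) (h : ι → ℝ) (x : ι → ℤ) :
    Differentiable ℂ fun τ : ℂ => thetaTerm A h τ x := by
  unfold thetaTerm
  fun_prop

theorem differentiableOn_thetaChar {A : Matrix ι ι ℝ} (hA : Coercive A) (h : ι → ℝ) :
    DifferentiableOn ℂ (thetaChar A h) {z : ℂ | 0 < z.im} := by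
  intro z hz
  have hz' : 0 < z.im := hz
  set ε : ℝ := z.im / 2 with hε
  have hεpos : 0 < ε := by positivity
  have hU : IsOpen {w : ℂ | ε < w.im} := isOpen_lt continuous_const Complex.continuous_im
  have hzU : z ∈ {w : ℂ | ε < w.im} := by
    show ε < z.im
    linarith
  have hd : DifferentiableOn ℂ (fun w : ℂ => ∑' x : ι → ℤ, thetaTerm A h w x)
      {w : ℂ | ε < w.im} :=
    differentiableOn_tsum_of_summable_norm
      (summable_exp_neg_quadR hA (mul_pos Real.pi_pos hεpos) h)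
      (fun x => (differentiable_thetaTerm A h x).differentiableOn) hU
      (fun x w hw => by
        have hw' : ε ≤ w.im := le_of_lt hw
        simpa using norm_thetaTerm_le hA h hw' x)
  exact ((hd z hzU).differentiableAt (hU.mem_nhds hzU)).differentiableWithinAt

/-- The theta series with characteristic as a function on the upper half plane. -/
def thetaFun (A : Matrix ι ι ℝ) (h : ι → ℝ) : UpperHalfPlane → ℂ := fun τ => thetaChar A h (τ : ℂ)

theorem mdifferentiable_thetaFun {A : Matrix ι ι ℝ} (hA : Coercive A) (h : ι → ℝ) :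
    MDifferentiable 𝓘(ℂ) 𝓘(ℂ) (thetaFun A h) := by
  rw [UpperHalfPlane.mdifferentiable_iff]
  refine (differentiableOn_thetaChar hA h).congr fun z hz => ?_
  simp only [Function.comp_apply, thetaFun]
  rw [UpperHalfPlane.ofComplex_apply_of_im_pos hz]

theorem norm_thetaChar_le {A : Matrix ι ι ℝ} (hA : Coercive A) (h : ι → ℝ) {τ : ℂ} {ε : ℝ}
    (hε0 : 0 < ε) (hε : ε ≤ τ.im) :
    ‖thetaChar A h τ‖ ≤ ∑' x : ι → ℤ, rexp (-(π * ε) * quadR A (shiftVec h x)) := by
  have hs := summable_exp_neg_quadR hA (mul_pos Real.pi_pos hε0) h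
  exact tsum_of_norm_bounded hs.hasSum fun x => norm_thetaTerm_le hA h hε x

theorem isBoundedAtImInfty_thetaFun {A : Matrix ι ι ℝ} (hA : Coercive A) (h : ι → ℝ) :
    UpperHalfPlane.IsBoundedAtImInfty (thetaFun A h) := by
  rw [UpperHalfPlane.isBoundedAtImInfty_iff]
  refine ⟨∑' x : ι → ℤ, rexp (-(π * 1) * quadR A (shiftVec h x)), 1, fun z hz => ?_⟩
  exact norm_thetaChar_le hA h one_pos hz


/-- An integer vector as a real vector. -/
def intVec (x : ι → ℤ) : ι → ℝ := fun i => (x i : ℝ)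

omit [Fintype ι] in
theorem shiftVec_zero (x : ι → ℤ) : shiftVec (0 : ι → ℝ) x = intVec x := by
  funext i
  simp [shiftVec, intVec]

/-- `A` takes even natural-number values on integer vectors. -/
def EvenIntegral (A : Matrix ι ι ℝ) : Prop :=
  ∀ x : ι → ℤ, ∃ n : ℕ, quadR A (intVec x) = 2 * (n : ℝ)

/-- The representation number `#{x ∈ ℤ^ι : xᵀAx = 2n}`. -/
def repCount (A : Matrix ι ι ℝ) (n : ℕ) : ℕ :=
  Set.ncard {x : ι → ℤ | quadR A (intVec x) = 2 * (n : ℝ)}

theorem finite_setOf_quadR_le {A : Matrix ι ι ℝ} (hA : Coercive A) (B : ℝ) :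
    Set.Finite {x : ι → ℤ | quadR A (intVec x) ≤ B} := by
  classical
  obtain ⟨c, hc, hAc⟩ := hA
  set M : ℕ := ⌈B / c⌉₊ with hM
  refine Set.Finite.subset (Fintype.piFinset fun _ : ι => Finset.Icc (-(M : ℤ)) M).finite_toSet ?_
  intro x hx
  have hx' : quadR A (intVec x) ≤ B := hx
  refine Finset.mem_coe.mpr (Fintype.mem_piFinset.mpr fun i => Finset.mem_Icc.mpr ?_)
  have h1 : c * ∑ j, (intVec x j) ^ 2 ≤ B := le_trans (hAc _) hx'
  have h2 : (intVec x i) ^ 2 ≤ ∑ j, (intVec x j) ^ 2 :=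
    Finset.single_le_sum (f := fun j => (intVec x j) ^ 2) (fun j _ => sq_nonneg _)
      (Finset.mem_univ i)
  have h3 : ((x i : ℝ)) ^ 2 ≤ B / c := by
    rw [le_div_iff₀ hc]
    have : c * (intVec x i) ^ 2 ≤ c * ∑ j, (intVec x j) ^ 2 :=
      mul_le_mul_of_nonneg_left h2 hc.le
    have h4 : c * (intVec x i) ^ 2 ≤ B := le_trans this h1
    simpa [intVec, mul_comm] using h4
  have h5 : ((x i : ℝ)) ^ 2 ≤ (M : ℝ) := le_trans h3 (Nat.le_ceil _)
  have h6 : (x i) ^ 2 ≤ (M : ℤ) := by exact_mod_cast h5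
  have h7 : |x i| ≤ (x i) ^ 2 := by
    have := Int.natAbs_le_self_sq (x i)
    rwa [Int.natCast_natAbs] at this
  have h8 : |x i| ≤ (M : ℤ) := le_trans h7 h6
  exact abs_le.mp h8

theorem finite_setOf_quadR_eq {A : Matrix ι ι ℝ} (hA : Coercive A) (n : ℕ) :
    Set.Finite {x : ι → ℤ | quadR A (intVec x) = 2 * (n : ℝ)} :=
  (finite_setOf_quadR_le hA (2 * (n : ℝ))).subset fun _ hx => le_of_eq hx

theorem thetaTerm_zero_eq_pow (A : Matrix ι ι ℝ) (τ : ℂ) (x : ι → ℤ) (n : ℕ)
    (hn : quadR A (intVec x) = 2 * (n : ℝ)) :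
    thetaTerm A 0 τ x = Function.Periodic.qParam 1 τ ^ n := by
  rw [thetaTerm, shiftVec_zero, hn, Function.Periodic.qParam, ← Complex.exp_nat_mul]
  congr 1
  push_cast
  ring

theorem hasSum_repCount_qParam {A : Matrix ι ι ℝ} (hA : Coercive A) (hE : EvenIntegral A)
    (τ : UpperHalfPlane) :
    HasSum (fun n : ℕ => (repCount A n : ℂ) * Function.Periodic.qParam 1 (τ : ℂ) ^ n)
      (thetaFun A 0 τ) := by
  classical
  set qv : (ι → ℤ) → ℕ := fun x => (hE x).choose with hqv
  have hqv_spec : ∀ x, quadR A (intVec x) = 2 * ((qv x : ℕ) : ℝ) := fun x => (hE x).choose_spec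
  have hF : HasSum (thetaTerm A 0 (τ : ℂ)) (thetaFun A 0 τ) :=
    (summable_thetaTerm hA 0 τ.im_pos).hasSum
  have hF' : HasSum (thetaTerm A 0 (τ : ℂ) ∘ (Equiv.sigmaFiberEquiv qv)) (thetaFun A 0 τ) :=
    (Equiv.hasSum_iff (Equiv.sigmaFiberEquiv qv)).mpr hF
  refine HasSum.sigma hF' fun n => ?_
  have hiff : ∀ x : ι → ℤ, qv x = n ↔ quadR A (intVec x) = 2 * (n : ℝ) := by
    intro x
    rw [hqv_spec x]
    constructor
    · intro h; rw [h]
    · intro h
      have : ((qv x : ℕ) : ℝ) = (n : ℝ) := by linarith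
      exact_mod_cast this
  have hfin0 : Finite {x : ι → ℤ // quadR A (intVec x) = 2 * (n : ℝ)} :=
    (finite_setOf_quadR_eq hA n).to_subtype
  have hfin : Finite {x : ι → ℤ // qv x = n} :=
    Finite.of_equiv _ (Equiv.subtypeEquivRight hiff).symm
  let _ : Fintype {x : ι → ℤ // qv x = n} := Fintype.ofFinite _
  have hterm : ∀ c : {x : ι → ℤ // qv x = n},
      (thetaTerm A 0 (τ : ℂ) ∘ (Equiv.sigmaFiberEquiv qv)) ⟨n, c⟩ =
        Function.Periodic.qParam 1 (τ : ℂ) ^ n := by
    intro c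
    simp only [Function.comp_apply, Equiv.sigmaFiberEquiv_apply]
    refine thetaTerm_zero_eq_pow A τ c.1 n ?_
    rw [hqv_spec c.1, c.2]
  have hcard : repCount A n = Fintype.card {x : ι → ℤ // qv x = n} := by
    rw [repCount, ← Nat.card_coe_set_eq, ← Nat.card_eq_fintype_card]
    exact Nat.card_congr (Equiv.subtypeEquivRight hiff).symm
  have := hasSum_fintype (fun c : {x : ι → ℤ // qv x = n} =>
    (thetaTerm A 0 (τ : ℂ) ∘ (Equiv.sigmaFiberEquiv qv)) ⟨n, c⟩)
  simp only [hterm, Finset.sum_const, Finset.card_univ, nsmul_eq_mul] at this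
  rw [hcard]
  convert this using 1
  funext c
  exact (hterm c)


theorem qParam_one_add_one (w : ℂ) :
    Function.Periodic.qParam 1 (w + 1) = Function.Periodic.qParam 1 w := by
  simp only [Function.Periodic.qParam, ofReal_one, div_one]
  rw [mul_add, Complex.exp_add, mul_one, Complex.exp_two_pi_mul_I, mul_one]

theorem periodic_thetaFun_zero {A : Matrix ι ι ℝ} (hA : Coercive A) (hE : EvenIntegral A) :
    Function.Periodic (thetaFun A 0 ∘ UpperHalfPlane.ofComplex) 1 := by
  intro w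
  by_cases hw : 0 < w.im
  · have hw1 : 0 < (w + 1).im := by simpa using hw
    simp only [Function.comp_apply, UpperHalfPlane.ofComplex_apply_of_im_pos hw1,
      UpperHalfPlane.ofComplex_apply_of_im_pos hw]
    have h1 := hasSum_repCount_qParam hA hE ⟨w + 1, hw1⟩
    have h2 := hasSum_repCount_qParam hA hE ⟨w, hw⟩
    have hq : Function.Periodic.qParam 1 ((⟨w + 1, hw1⟩ : UpperHalfPlane) : ℂ) =
        Function.Periodic.qParam 1 ((⟨w, hw⟩ : UpperHalfPlane) : ℂ) := qParam_one_add_one w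
    rw [hq] at h1
    exact h1.unique h2
  · have hw' : w.im ≤ 0 := not_lt.mp hw
    have hw1 : (w + 1).im ≤ 0 := by simpa using hw'
    simp only [Function.comp_apply]
    rw [UpperHalfPlane.ofComplex_apply_eq_of_im_nonpos hw1 hw']

theorem analyticAt_cuspFunction_thetaFun_zero {A : Matrix ι ι ℝ} (hA : Coercive A)
    (hE : EvenIntegral A) : AnalyticAt ℂ (UpperHalfPlane.cuspFunction 1 (thetaFun A 0)) 0 :=
  UpperHalfPlane.analyticAt_cuspFunction_zero one_pos (periodic_thetaFun_zero hA hE)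
    (mdifferentiable_thetaFun hA 0) (isBoundedAtImInfty_thetaFun hA 0)

/-- `UpperHalfPlane.qExpansion_coeff_unique` for plain functions. -/
theorem qExpansion_coeff_unique_fun (f : UpperHalfPlane → ℂ) (c : ℕ → ℂ)
    (hfan : AnalyticAt ℂ (UpperHalfPlane.cuspFunction 1 f) 0)
    (key : ∀ τ : UpperHalfPlane,
      HasSum (fun m : ℕ => c m • Function.Periodic.qParam 1 (τ : ℂ) ^ m) (f τ)) (n : ℕ) :
    c n = (PowerSeries.coeff n) (UpperHalfPlane.qExpansion 1 f) := by
  let _ : FunLike (UpperHalfPlane → ℂ) UpperHalfPlane ℂ := ⟨fun g => g, fun _ _ h => h⟩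
  exact UpperHalfPlane.qExpansion_coeff_unique (F := UpperHalfPlane → ℂ) f (h := 1) one_pos
    hfan key n

/-- **q-expansion of the theta series**: the `n`-th coefficient is the representation number. -/
theorem qExpansion_thetaFun_zero_coeff {A : Matrix ι ι ℝ} (hA : Coercive A)
    (hE : EvenIntegral A) (n : ℕ) :
    (PowerSeries.coeff n) (UpperHalfPlane.qExpansion 1 (thetaFun A 0)) = (repCount A n : ℂ) :=
  (qExpansion_coeff_unique_fun (thetaFun A 0) (fun n : ℕ => (repCount A n : ℂ))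
    (analyticAt_cuspFunction_thetaFun_zero hA hE)
    (fun τ => hasSum_repCount_qParam hA hE τ) n).symm

/-- Version for any function (e.g. the coercion of a modular form) equal to the theta series. -/
theorem qExpansion_coeff_of_eq_thetaFun {A : Matrix ι ι ℝ} (hA : Coercive A)
    (hE : EvenIntegral A) {F : UpperHalfPlane → ℂ} (hF : F = thetaFun A 0) (n : ℕ) :
    (PowerSeries.coeff n) (UpperHalfPlane.qExpansion 1 F) = (repCount A n : ℂ) := by
  subst hF
  exact qExpansion_thetaFun_zero_coeff hA hE n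


theorem quadR_neg (A : Matrix ι ι ℝ) (v : ι → ℝ) : quadR A (-v) = quadR A v := by
  have := quadR_smul A (-1) v
  simpa using this

theorem quadR_zero (A : Matrix ι ι ℝ) : quadR A 0 = 0 := by
  simp [quadR]

omit [Fintype ι] in
theorem intVec_neg (x : ι → ℤ) : intVec (-x) = -intVec x := by
  funext i
  simp [intVec]

omit [Fintype ι] in
theorem intVec_zero : intVec (0 : ι → ℤ) = 0 := by
  funext i
  simp [intVec]

theorem eq_zero_of_quadR_intVec_eq_zero {A : Matrix ι ι ℝ} (hA : Coercive A) {x : ι → ℤ}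
    (hx : quadR A (intVec x) = 0) : x = 0 := by
  obtain ⟨c, hc, hAc⟩ := hA
  have h1 := hAc (intVec x)
  rw [hx] at h1
  have h2 : ∑ i, (intVec x i) ^ 2 ≤ 0 := by
    by_contra h
    have h' := not_le.mp h
    nlinarith [mul_pos hc h']
  have h3 : ∑ i, (intVec x i) ^ 2 = 0 :=
    le_antisymm h2 (Finset.sum_nonneg fun i _ => sq_nonneg _)
  funext i
  have h4 := (Finset.sum_eq_zero_iff_of_nonneg (fun i _ => sq_nonneg (intVec x i))).mp h3 i
    (Finset.mem_univ i)
  have h5 : (x i : ℝ) = 0 := by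
    have := pow_eq_zero_iff (two_ne_zero) |>.mp h4
    simpa [intVec] using this
  exact_mod_cast h5

theorem repCount_zero {A : Matrix ι ι ℝ} (hA : Coercive A) : repCount A 0 = 1 := by
  have : {x : ι → ℤ | quadR A (intVec x) = 2 * ((0 : ℕ) : ℝ)} = {0} := by
    ext x
    simp only [Nat.cast_zero, mul_zero, Set.mem_singleton_iff]
    constructor
    · intro hx
      exact eq_zero_of_quadR_intVec_eq_zero hA hx
    · rintro rfl
      show quadR A (intVec 0) = 0
      rw [intVec_zero, quadR_zero]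
  rw [repCount, this, Set.ncard_singleton]

theorem even_repCount {A : Matrix ι ι ℝ} (hA : Coercive A) {n : ℕ} (hn : n ≠ 0) :
    Even (repCount A n) := by
  classical
  have hfin : Set.Finite {x : ι → ℤ | quadR A (intVec x) = 2 * (n : ℝ)} :=
    finite_setOf_quadR_eq hA n
  rw [repCount, Set.ncard_eq_toFinset_card _ hfin, ← ZMod.natCast_eq_zero_iff_even]
  have hmem : ∀ x, x ∈ hfin.toFinset ↔ quadR A (intVec x) = 2 * (n : ℝ) := fun x => by
    rw [Set.Finite.mem_toFinset]; rfl
  have key : ∑ _x ∈ hfin.toFinset, (1 : ZMod 2) = 0 := by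
    refine Finset.sum_involution (fun x _ => -x) (fun _ _ => by decide) ?_ ?_ ?_
    · intro a ha _ hneg
      have ha' := (hmem a).mp ha
      have h0 : a = 0 := by
        funext i
        have := congrFun hneg i
        simp only [Pi.neg_apply, Pi.zero_apply] at this ⊢
        omega
      rw [h0, intVec_zero, quadR_zero] at ha'
      have : (n : ℝ) = 0 := by linarith
      exact hn (by exact_mod_cast this)
    · intro a ha
      rw [hmem] at ha ⊢
      rw [intVec_neg, quadR_neg, ha]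
    · intro a _
      exact neg_neg a
  simpa using key

/-- Integer symmetric matrices with even diagonal take even values. -/
theorem even_dotProduct_mulVec {B : Matrix ι ι ℤ} (hsymm : B.IsSymm) (hdiag : ∀ i, Even (B i i))
    (x : ι → ℤ) : Even (x ⬝ᵥ B.mulVec x) := by
  classical
  rw [← ZMod.intCast_eq_zero_iff_even]
  have h1 : x ⬝ᵥ B.mulVec x = ∑ p : ι × ι, x p.1 * B p.1 p.2 * x p.2 := by
    simp only [dotProduct, Matrix.mulVec, Finset.mul_sum]
    rw [← Finset.sum_product']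
    refine Finset.sum_congr rfl fun p _ => ?_
    ring
  rw [h1, Int.cast_sum]
  refine Finset.sum_involution (fun p _ => (p.2, p.1)) ?_ ?_ ?_ ?_
  · intro p _
    have : B p.2 p.1 = B p.1 p.2 := by
      have := congrFun (congrFun hsymm p.1) p.2
      simpa [Matrix.transpose_apply] using this
    simp only [this]
    have h2 : ((x p.2 * B p.1 p.2 * x p.1 : ℤ) : ZMod 2) = ((x p.1 * B p.1 p.2 * x p.2 : ℤ) : ZMod 2) := by
      congr 1; ring
    rw [h2]
    exact CharTwo.add_self_eq_zero _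
  · intro p _ hne hp
    apply hne
    have h12 : p.2 = p.1 := congrArg Prod.fst hp
    rw [h12]
    have := (ZMod.intCast_eq_zero_iff_even).mpr (hdiag p.1)
    push_cast
    rw [this]
    ring
  · intro p _
    exact Finset.mem_univ _
  · intro p _
    rfl

theorem quadR_map_intCast (B : Matrix ι ι ℤ) (x : ι → ℤ) :
    quadR (B.map (Int.cast : ℤ → ℝ)) (intVec x) = ((x ⬝ᵥ B.mulVec x : ℤ) : ℝ) := by
  simp only [quadR, dotProduct, Matrix.mulVec, intVec, Matrix.map_apply]
  push_cast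
  rfl

theorem evenIntegral_of_int {B : Matrix ι ι ℤ} (hsymm : B.IsSymm) (hdiag : ∀ i, Even (B i i))
    (hA : Coercive (B.map (Int.cast : ℤ → ℝ))) : EvenIntegral (B.map (Int.cast : ℤ → ℝ)) := by
  intro x
  obtain ⟨m, hm⟩ := even_dotProduct_mulVec hsymm hdiag x
  have h0 := quadR_nonneg hA (intVec x)
  rw [quadR_map_intCast, hm] at h0
  have hm0 : 0 ≤ m := by
    have : (0 : ℝ) ≤ ((m + m : ℤ) : ℝ) := h0
    have : (0 : ℤ) ≤ m + m := by exact_mod_cast this
    omega
  refine ⟨m.toNat, ?_⟩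
  rw [quadR_map_intCast, hm]
  have : ((m.toNat : ℕ) : ℝ) = (m : ℝ) := by
    have := Int.toNat_of_nonneg hm0
    exact_mod_cast this
  rw [this]
  push_cast
  ring

end

end Fermat.Agent.S16.H488
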