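/-
S16 / WP TH (q-expansion), helper488: the skeleton statement `qCoeff_theta` in exact shape,
plus holomorphy and boundedness at `i∞` of the theta series of the frozen interface.
-/
import Fermat.Agent.S16.Interface
import Fermat.Agent.S16.H488.ThetaSum

set_option autoImplicit false

namespace Fermat.Agent.S16.H488

open Real Complex
open scoped Manifold

noncomputable section

/-- The interface theta series is the generic theta series with zero characteristic. -/
theorem interface_thetaFun_eq (A : Matrix (Fin 4) (Fin 4) ℤ) :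
    Fermat.Agent.S16.thetaFun A = thetaFun (A.map (Int.cast : ℤ → ℝ)) 0 := by
  funext z
  unfold Fermat.Agent.S16.thetaFun thetaFun thetaChar thetaTerm
  refine tsum_congr fun x => ?_
  rw [shiftVec_zero, quadR_map_intCast]
  simp only [Fermat.Agent.S16.qf]
  push_cast
  rfl

theorem coercive_of_isGoodLattice {p : ℕ} {A B : Matrix (Fin 4) (Fin 4) ℤ}
    (hA : IsGoodLattice p A B) : Coercive (A.map (Int.cast : ℤ → ℝ)) :=
  coercive_of_posDef hA.posDef

theorem evenIntegral_of_isGoodLattice {p : ℕ} {A B : Matrix (Fin 4) (Fin 4) ℤ}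
    (hA : IsGoodLattice p A B) : EvenIntegral (A.map (Int.cast : ℤ → ℝ)) :=
  evenIntegral_of_int hA.symm hA.even (coercive_of_isGoodLattice hA)

/-- The `q`-coefficients of the interface theta series are the representation numbers. -/
theorem qCoeff_thetaFun_eq_repCount {p : ℕ} {A B : Matrix (Fin 4) (Fin 4) ℤ}
    (hA : IsGoodLattice p A B) (k : ℕ) :
    ModularFormClass.qCoeff (Fermat.Agent.S16.thetaFun A) k =
      (repCount (A.map (Int.cast : ℤ → ℝ)) k : ℂ) := by
  rw [interface_thetaFun_eq]
  exact qExpansion_thetaFun_zero_coeff (coercive_of_isGoodLattice hA)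
    (evenIntegral_of_isGoodLattice hA) k

/-- **WP TH (q-expansion)**, exact skeleton statement `Skel.qCoeff_theta`. -/
theorem qCoeff_theta (p : ℕ) [Fact p.Prime] (A B : Matrix (Fin 4) (Fin 4) ℤ)
    (hA : IsGoodLattice p A B) :
    ModularFormClass.qCoeff (Fermat.Agent.S16.thetaFun A) 0 = 1 ∧
      ∀ k : ℕ, 1 ≤ k →
        ∃ m : ℤ, ModularFormClass.qCoeff (Fermat.Agent.S16.thetaFun A) k = 2 * (m : ℂ) := by
  refine ⟨?_, fun k hk => ?_⟩
  · rw [qCoeff_thetaFun_eq_repCount hA, repCount_zero (coercive_of_isGoodLattice hA)]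
    simp
  · obtain ⟨m, hm⟩ := even_repCount (coercive_of_isGoodLattice hA) (n := k) (by omega)
    refine ⟨(m : ℤ), ?_⟩
    rw [qCoeff_thetaFun_eq_repCount hA, hm]
    push_cast
    ring

/-- The interface theta series is holomorphic on the upper half plane. -/
theorem mdifferentiable_interface_thetaFun {p : ℕ} {A B : Matrix (Fin 4) (Fin 4) ℤ}
    (hA : IsGoodLattice p A B) :
    MDifferentiable 𝓘(ℂ) 𝓘(ℂ) (Fermat.Agent.S16.thetaFun A) := by
  rw [interface_thetaFun_eq]
  exact mdifferentiable_thetaFun (coercive_of_isGoodLattice hA) 0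

/-- The interface theta series is bounded at `i∞`. -/
theorem isBoundedAtImInfty_interface_thetaFun {p : ℕ} {A B : Matrix (Fin 4) (Fin 4) ℤ}
    (hA : IsGoodLattice p A B) :
    UpperHalfPlane.IsBoundedAtImInfty (Fermat.Agent.S16.thetaFun A) := by
  rw [interface_thetaFun_eq]
  exact isBoundedAtImInfty_thetaFun (coercive_of_isGoodLattice hA) 0

end

end Fermat.Agent.S16.H488
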